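import Fermat.Agent.LT.T6.Spec

/-!
# Row LT, tower T6, sub-leaf T6.02 `InstExtC` (helper267), OFF-MAIN

`K'/K` cyclic of prime degree `l` with generator `s`, `w` the only place of `K'` over the place
`v` of `K`: the inclusion `K → K'` and `s` extend to the completions `K_v → K'_w`, `K'_w ≃ K'_w`
and give a cyclic extension of local fields in the sense of `T6.IsLocalExt`, with
`e` = the ramification index, and `N w = N v ^ (l / e)`.

Proof.
* `locIncl` : `K_v →+* K'_w` is the completion of `K → K'` (uniformly continuous by Mathlib's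
  `uniformContinuous_algebraMap_liesOver`); `|i x|_w = |x|_v ^ e` on `K` (Mathlib's
  `valuation_liesOver`), hence on `K_v` (the valuation is locally constant off `0`).  So `i` is
  uniform inducing and its range is complete, hence closed.
* `s` fixes `w` (the only place over `v`), hence preserves the `w`-adic valuation, hence is
  uniformly continuous; `locAut` is its completion.
* fixed field: `T = ∑_{j<l} sw^j` is continuous and maps the dense subfield `K'` into `i(K)`
  (Galois theory of `K'/K`), hence `K'_w` into the closed set `i(K_v)`; a fixed point `y` is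
  `T y / l`.
* `N w = N v ^ f` and `e f = l` because `w` is the only prime over `v`.
-/

set_option autoImplicit false
set_option linter.deprecated false
set_option linter.unusedSectionVars false

open IsDedekindDomain NumberField

namespace Fermat.Agent.LT.T6.H267

/-! ## 1. Galois theory of a cyclic extension -/

section Galois

variable {K K' : Type} [Field K] [Field K'] [Algebra K K'] [FiniteDimensional K K']
  [IsGalois K K'] (s : K' ≃ₐ[K] K')

theorem orderOf_gen (hgen : ∀ t : K' ≃ₐ[K] K', t ∈ Subgroup.zpowers s) :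
    orderOf s = Module.finrank K K' := by
  rw [orderOf_eq_card_of_forall_mem_zpowers hgen, IsGalois.card_aut_eq_finrank]

theorem gen_pow_finrank (hgen : ∀ t : K' ≃ₐ[K] K', t ∈ Subgroup.zpowers s) :
    s ^ Module.finrank K K' = 1 := by
  rw [← orderOf_gen s hgen]
  exact pow_orderOf_eq_one s

theorem exists_pow_apply_ne (hgen : ∀ t : K' ≃ₐ[K] K', t ∈ Subgroup.zpowers s)
    (m : ℕ) (hm : 0 < m) (hml : m < Module.finrank K K') : ∃ y : K', (s ^ m) y ≠ y := by
  have h : s ^ m ≠ 1 := pow_ne_one_of_lt_orderOf hm.ne' (by rwa [orderOf_gen s hgen])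
  by_contra hcon
  exact h (AlgEquiv.ext fun y => by
    rw [AlgEquiv.one_apply]
    by_contra hy
    exact hcon ⟨y, hy⟩)

theorem mem_range_of_fixed (hgen : ∀ t : K' ≃ₐ[K] K', t ∈ Subgroup.zpowers s)
    (y : K') (hy : s y = y) : ∃ k : K, algebraMap K K' k = y := by
  have h : ∀ t : K' ≃ₐ[K] K', t y = y := by
    intro t
    have hs : s ∈ MulAction.stabilizer (K' ≃ₐ[K] K') y := by
      rw [MulAction.mem_stabilizer_iff]
      exact hy
    have ht : t ∈ MulAction.stabilizer (K' ≃ₐ[K] K') y :=
      (Subgroup.zpowers_le.mpr hs) (hgen t)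
    rw [MulAction.mem_stabilizer_iff] at ht
    exact ht
  exact (IsGalois.mem_range_algebraMap_iff_fixed (F := K) (E := K') y).mpr h

/-- The sum over the first `n` powers of the generator. -/
noncomputable def powSum (n : ℕ) (y : K') : K' := ∑ j ∈ Finset.range n, (s ^ j) y

theorem powSum_fixed (hgen : ∀ t : K' ≃ₐ[K] K', t ∈ Subgroup.zpowers s) (y : K') :
    s (powSum s (Module.finrank K K') y) = powSum s (Module.finrank K K') y := by
  unfold powSum
  rw [map_sum]
  have h1 : ∀ j, s ((s ^ j) y) = (s ^ (j + 1)) y := by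
    intro j
    rw [pow_succ', AlgEquiv.mul_apply]
  simp only [h1]
  have h2 := Finset.sum_range_succ' (fun j => (s ^ j) y) (Module.finrank K K')
  have h3 := Finset.sum_range_succ (fun j => (s ^ j) y) (Module.finrank K K')
  rw [h3] at h2
  simp only [gen_pow_finrank s hgen, pow_zero] at h2
  exact (add_right_cancel h2).symm

end Galois

variable {K K' : Type} [Field K] [NumberField K] [Field K'] [NumberField K'] [Algebra K K']

theorem liesOver_of_iff (v : HeightOneSpectrum (𝓞 K)) (w : HeightOneSpectrum (𝓞 K'))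
    (h : ∀ x : 𝓞 K, x ∈ v.asIdeal ↔ algebraMap (𝓞 K) (𝓞 K') x ∈ w.asIdeal) :
    w.asIdeal.LiesOver v.asIdeal :=
  ⟨by ext x; exact h x⟩

theorem valued_algebraMap (v : HeightOneSpectrum (𝓞 K)) (k : K) :
    Valued.v (algebraMap K (v.adicCompletion K) k) = v.valuation K k :=
  HeightOneSpectrum.valuedAdicCompletion_eq_valuation' v k

/-! ## 2. The inclusion of the completions -/

section Incl

variable (v : HeightOneSpectrum (𝓞 K)) (w : HeightOneSpectrum (𝓞 K'))
  [w.asIdeal.LiesOver v.asIdeal]

/-- The inclusion of the completions `K_v →+* K'_w`. -/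
noncomputable def locIncl : v.adicCompletion K →+* w.adicCompletion K' :=
  (HeightOneSpectrum.adicCompletion.equiv K' w).symm.toRingHom.comp
    ((UniformSpace.Completion.mapRingHom
        (algebraMap (WithVal (v.valuation K)) (WithVal (w.valuation K')))
        (HeightOneSpectrum.uniformContinuous_algebraMap_liesOver K K' v w).continuous).comp
      (HeightOneSpectrum.adicCompletion.equiv K v).toRingHom)

theorem locIncl_apply (x : v.adicCompletion K) :
    (locIncl v w x).toCompletion =
      UniformSpace.Completion.map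
        (algebraMap (WithVal (v.valuation K)) (WithVal (w.valuation K'))) x.toCompletion := rfl

theorem continuous_locIncl : Continuous (locIncl v w) := by
  have h1 : Continuous (fun x : v.adicCompletion K =>
      UniformSpace.Completion.map
        (algebraMap (WithVal (v.valuation K)) (WithVal (w.valuation K'))) x.toCompletion) :=
    UniformSpace.Completion.continuous_map.comp
      (HeightOneSpectrum.adicCompletion.continuous_toCompletion K v)
  exact (HeightOneSpectrum.adicCompletion.continuous_ofCompletion K' w).comp h1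

theorem locIncl_algebraMap (x : K) :
    locIncl v w (algebraMap K (v.adicCompletion K) x)
      = algebraMap K' (w.adicCompletion K') (algebraMap K K' x) := by
  apply HeightOneSpectrum.adicCompletion.ext
  rw [locIncl_apply]
  rw [HeightOneSpectrum.algebraMap_adicCompletion_toCompletion,
    HeightOneSpectrum.algebraMap_adicCompletion_toCompletion]
  rw [UniformSpace.Completion.algebraMap_def, UniformSpace.Completion.algebraMap_def,
    UniformSpace.Completion.map_coe
      (HeightOneSpectrum.uniformContinuous_algebraMap_liesOver K K' v w)]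
  rfl

/-- The ramification index of `w` over `v`. -/
noncomputable def ramIdx : ℕ := v.asIdeal.ramificationIdx' w.asIdeal

theorem ramIdx_ne_zero : ramIdx v w ≠ 0 :=
  Ideal.IsDedekindDomain.ramificationIdx'_ne_zero_of_liesOver w.asIdeal v.ne_bot

theorem valued_locIncl_algebraMap (k : K) :
    Valued.v (locIncl v w (algebraMap K (v.adicCompletion K) k))
      = Valued.v (algebraMap K (v.adicCompletion K) k) ^ ramIdx v w := by
  rw [locIncl_algebraMap, valued_algebraMap, valued_algebraMap]
  exact (HeightOneSpectrum.valuation_liesOver K' v w k).symm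

theorem locIncl_injective : Function.Injective (locIncl v w) :=
  (locIncl v w).injective

theorem valued_locIncl (x : v.adicCompletion K) :
    Valued.v (locIncl v w x) = Valued.v x ^ ramIdx v w := by
  rcases eq_or_ne x 0 with rfl | hx
  · simp [ramIdx_ne_zero v w]
  have hx' : locIncl v w x ≠ 0 := by
    intro h
    exact hx (locIncl_injective v w (by rw [h, map_zero]))
  have h1 : {y : v.adicCompletion K | Valued.v y = Valued.v x} ∈ nhds x :=
    Valued.locally_const (by simpa using hx)
  have h2 : {z : w.adicCompletion K' | Valued.v z = Valued.v (locIncl v w x)}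
      ∈ nhds (locIncl v w x) :=
    Valued.locally_const (by simpa using hx')
  have h3 : (locIncl v w) ⁻¹' {z : w.adicCompletion K' | Valued.v z = Valued.v (locIncl v w x)}
      ∈ nhds x := (continuous_locIncl v w).continuousAt h2
  obtain ⟨k, hy1, hy2⟩ :=
    (HeightOneSpectrum.denseRange_algebraMap K v).mem_nhds (Filter.inter_mem h1 h3)
  simp only [Set.mem_ofPred_eq, Set.mem_preimage] at hy1 hy2
  rw [← hy1, ← hy2]
  exact valued_locIncl_algebraMap v w k

theorem uniformContinuous_locIncl : UniformContinuous (locIncl v w) :=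
  uniformContinuous_addMonoidHom_of_continuous (continuous_locIncl v w)

theorem isUniformInducing_locIncl : IsUniformInducing (locIncl v w) := by
  rw [isUniformInducing_iff']
  refine ⟨uniformContinuous_locIncl v w, ?_⟩
  rw [((Valued.hasBasis_uniformity (w.adicCompletion K') _).comap _).le_basis_iff
    (Valued.hasBasis_uniformity (v.adicCompletion K) _)]
  intro γ _
  obtain ⟨z, hz⟩ := HeightOneSpectrum.valuedAdicCompletion_surjective K v
    (MonoidWithZeroHom.ValueGroup₀.embedding γ.val)
  have hz0 : Valued.v z ≠ 0 := by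
    rw [hz]
    simp
  have hz' : Valued.v (locIncl v w z) ≠ 0 := by
    rw [valued_locIncl]
    exact pow_ne_zero _ hz0
  refine ⟨Units.mk0 (Valued.v.restrict (locIncl v w z)) ?_, trivial, ?_⟩
  · rw [Ne, ← MonoidWithZeroHom.ValueGroup₀.embedding_inj]
    simpa using hz'
  rintro ⟨x, y⟩ hxy
  simp only [Set.mem_preimage, Prod.map_apply, Set.mem_ofPred_eq, Units.val_mk0] at hxy ⊢
  rw [Valuation.restrict_lt_iff_lt_embedding] at hxy ⊢
  rw [Valuation.embedding_restrict, ← map_sub, valued_locIncl, valued_locIncl, hz] at hxy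
  exact lt_of_pow_lt_pow_left₀ _ zero_le' hxy

theorem isClosed_range_locIncl : IsClosed (Set.range (locIncl v w)) :=
  (isUniformInducing_locIncl v w).isComplete_range.isClosed

end Incl

/-! ## 3. The completion of a valuation-preserving automorphism -/

section Aut

variable (w : HeightOneSpectrum (𝓞 K')) (σ : K' ≃+* K')

theorem uniformContinuous_congr_of_valuation_eq
    (hσ : ∀ y : K', w.valuation K' (σ y) = w.valuation K' y) :
    UniformContinuous (WithVal.congr (w.valuation K') (w.valuation K') σ) := by
  refine uniformContinuous_of_continuousAt_zero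
    (WithVal.congr (w.valuation K') (w.valuation K') σ) ?_
  rw [ContinuousAt, map_zero, (Valued.hasBasis_nhds_zero _ _).tendsto_iff
    (Valued.hasBasis_nhds_zero _ _)]
  intro γ _
  refine ⟨γ, trivial, fun x hx => ?_⟩
  simp only [Set.mem_ofPred_eq] at hx ⊢
  rw [Valuation.restrict_lt_iff_lt_embedding] at hx ⊢
  have : Valued.v ((WithVal.congr (w.valuation K') (w.valuation K') σ) x) = Valued.v x := by
    rw [← WithVal.apply_ofVal, ← WithVal.apply_ofVal]
    exact hσ _
  rw [this]
  exact hx

theorem valuation_symm_eq (hσ : ∀ y : K', w.valuation K' (σ y) = w.valuation K' y) (y : K') :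
    w.valuation K' (σ.symm y) = w.valuation K' y := by
  rw [← hσ (σ.symm y), RingEquiv.apply_symm_apply]

/-- The automorphism of the completion induced by a valuation-preserving automorphism. -/
noncomputable def locAut (hσ : ∀ y : K', w.valuation K' (σ y) = w.valuation K' y) :
    w.adicCompletion K' ≃+* w.adicCompletion K' :=
  (HeightOneSpectrum.adicCompletion.equiv K' w).trans
    ((UniformSpace.Completion.mapRingEquiv
        (WithVal.congr (w.valuation K') (w.valuation K') σ)
        (uniformContinuous_congr_of_valuation_eq w σ hσ).continuous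
        (uniformContinuous_congr_of_valuation_eq w σ.symm
          (valuation_symm_eq w σ hσ)).continuous).trans
      (HeightOneSpectrum.adicCompletion.equiv K' w).symm)

variable (hσ : ∀ y : K', w.valuation K' (σ y) = w.valuation K' y)

theorem locAut_apply (x : w.adicCompletion K') :
    (locAut w σ hσ x).toCompletion =
      UniformSpace.Completion.map
        (WithVal.congr (w.valuation K') (w.valuation K') σ) x.toCompletion := rfl

theorem continuous_locAut : Continuous (locAut w σ hσ) := by
  have h1 : Continuous (fun x : w.adicCompletion K' =>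
      UniformSpace.Completion.map
        (WithVal.congr (w.valuation K') (w.valuation K') σ) x.toCompletion) :=
    UniformSpace.Completion.continuous_map.comp
      (HeightOneSpectrum.adicCompletion.continuous_toCompletion K' w)
  exact (HeightOneSpectrum.adicCompletion.continuous_ofCompletion K' w).comp h1

theorem locAut_algebraMap (y : K') :
    locAut w σ hσ (algebraMap K' (w.adicCompletion K') y)
      = algebraMap K' (w.adicCompletion K') (σ y) := by
  apply HeightOneSpectrum.adicCompletion.ext
  rw [locAut_apply]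
  rw [HeightOneSpectrum.algebraMap_adicCompletion_toCompletion,
    HeightOneSpectrum.algebraMap_adicCompletion_toCompletion]
  rw [UniformSpace.Completion.algebraMap_def, UniformSpace.Completion.algebraMap_def,
    UniformSpace.Completion.map_coe (uniformContinuous_congr_of_valuation_eq w σ hσ)]
  rfl

theorem valued_locAut (x : w.adicCompletion K') :
    Valued.v (locAut w σ hσ x) = Valued.v x := by
  rcases eq_or_ne x 0 with rfl | hx
  · simp
  have hx' : locAut w σ hσ x ≠ 0 := by
    intro h
    exact hx ((locAut w σ hσ).injective (by rw [h, map_zero]))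
  have h1 : {y : w.adicCompletion K' | Valued.v y = Valued.v x} ∈ nhds x :=
    Valued.locally_const (by simpa using hx)
  have h2 : {z : w.adicCompletion K' | Valued.v z = Valued.v (locAut w σ hσ x)}
      ∈ nhds (locAut w σ hσ x) :=
    Valued.locally_const (by simpa using hx')
  have h3 : (locAut w σ hσ) ⁻¹'
      {z : w.adicCompletion K' | Valued.v z = Valued.v (locAut w σ hσ x)}
      ∈ nhds x := (continuous_locAut w σ hσ).continuousAt h2
  obtain ⟨k, hy1, hy2⟩ :=
    (HeightOneSpectrum.denseRange_algebraMap K' w).mem_nhds (Filter.inter_mem h1 h3)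
  simp only [Set.mem_ofPred_eq, Set.mem_preimage] at hy1 hy2
  rw [← hy1, ← hy2, locAut_algebraMap, valued_algebraMap, valued_algebraMap]
  exact hσ k

theorem continuous_locAut_pow (m : ℕ) : Continuous ⇑((locAut w σ hσ) ^ m) := by
  induction m with
  | zero =>
    have : ⇑((locAut w σ hσ) ^ 0) = id := by
      funext x
      rw [pow_zero, RingAut.one_apply, id]
    rw [this]
    exact continuous_id
  | succ m ih =>
    have : ⇑((locAut w σ hσ) ^ (m + 1)) = ⇑((locAut w σ hσ) ^ m) ∘ ⇑(locAut w σ hσ) := by
      funext x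
      rw [pow_succ, RingAut.mul_apply, Function.comp_apply]
    rw [this]
    exact ih.comp (continuous_locAut w σ hσ)

end Aut

/-! ## 4. An automorphism which fixes the prime preserves the valuation -/

section Stable

variable (w : HeightOneSpectrum (𝓞 K')) (σ : K' ≃+* K')

/-- The restriction of an automorphism to the ring of integers. -/
noncomputable abbrev intAut : 𝓞 K' ≃+* 𝓞 K' := RingOfIntegers.mapRingEquiv σ

theorem intAut_intAut_symm (y : 𝓞 K') : intAut σ (intAut σ.symm y) = y := by
  apply RingOfIntegers.ext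
  simp

theorem intAut_symm_intAut (y : 𝓞 K') : intAut σ.symm (intAut σ y) = y := by
  apply RingOfIntegers.ext
  simp

theorem exists_intValuation_eq_exp (y : 𝓞 K') (hy : y ≠ 0) :
    ∃ n : ℕ, w.intValuation y = WithZero.exp (-(n : ℤ)) :=
  ⟨_, w.intValuation_if_neg hy⟩

theorem map_pow_le_of_comap_eq (hc : Ideal.comap (intAut σ) w.asIdeal = w.asIdeal) (n : ℕ)
    (y : 𝓞 K') (hy : y ∈ w.asIdeal ^ n) : intAut σ y ∈ w.asIdeal ^ n := by
  have h1 : Ideal.map (intAut σ) w.asIdeal = w.asIdeal := by
    conv_lhs => rw [← hc]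
    exact Ideal.map_comap_of_surjective _ (intAut σ).surjective _
  have h2 : Ideal.map (intAut σ) (w.asIdeal ^ n) = w.asIdeal ^ n := by
    rw [Ideal.map_pow, h1]
  rw [← h2]
  exact Ideal.mem_map_of_mem _ hy

theorem intValuation_le_of_comap_eq (hc : Ideal.comap (intAut σ) w.asIdeal = w.asIdeal)
    (y : 𝓞 K') : w.intValuation (intAut σ y) ≤ w.intValuation y := by
  rcases eq_or_ne y 0 with rfl | hy
  · simp
  obtain ⟨n, hn⟩ := exists_intValuation_eq_exp w y hy
  rw [hn, HeightOneSpectrum.intValuation_le_pow_iff_mem]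
  apply map_pow_le_of_comap_eq w σ hc
  rw [← HeightOneSpectrum.intValuation_le_pow_iff_mem, hn]

theorem comap_symm_eq (hc : Ideal.comap (intAut σ) w.asIdeal = w.asIdeal) :
    Ideal.comap (intAut σ.symm) w.asIdeal = w.asIdeal := by
  ext y
  rw [Ideal.mem_comap]
  have hmem : ∀ z, intAut σ z ∈ w.asIdeal ↔ z ∈ w.asIdeal := fun z => by
    rw [← Ideal.mem_comap, hc]
  rw [← hmem (intAut σ.symm y), intAut_intAut_symm]

theorem intValuation_eq_of_comap_eq (hc : Ideal.comap (intAut σ) w.asIdeal = w.asIdeal)
    (y : 𝓞 K') : w.intValuation (intAut σ y) = w.intValuation y := by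
  apply le_antisymm (intValuation_le_of_comap_eq w σ hc y)
  have h := intValuation_le_of_comap_eq w σ.symm (comap_symm_eq w σ hc) (intAut σ y)
  rwa [intAut_symm_intAut] at h

theorem valuation_eq_of_comap_eq (hc : Ideal.comap (intAut σ) w.asIdeal = w.asIdeal)
    (y : K') : w.valuation K' (σ y) = w.valuation K' y := by
  obtain ⟨a, b, hb, rfl⟩ := IsFractionRing.div_surjective (A := 𝓞 K') y
  have ha : σ (algebraMap (𝓞 K') K' a) = algebraMap (𝓞 K') K' (intAut σ a) := rfl
  have hb' : σ (algebraMap (𝓞 K') K' b) = algebraMap (𝓞 K') K' (intAut σ b) := rfl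
  rw [map_div₀, ha, hb', map_div₀, map_div₀, HeightOneSpectrum.valuation_of_algebraMap,
    HeightOneSpectrum.valuation_of_algebraMap, HeightOneSpectrum.valuation_of_algebraMap,
    HeightOneSpectrum.valuation_of_algebraMap, intValuation_eq_of_comap_eq w σ hc,
    intValuation_eq_of_comap_eq w σ hc]

end Stable

section Unique

variable (v : HeightOneSpectrum (𝓞 K)) (w : HeightOneSpectrum (𝓞 K')) (s : K' ≃ₐ[K] K')

theorem intAut_algebraMap (x : 𝓞 K) :
    intAut (s : K' ≃+* K') (algebraMap (𝓞 K) (𝓞 K') x) = algebraMap (𝓞 K) (𝓞 K') x := by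
  apply RingOfIntegers.ext
  show s (algebraMap K K' (x : K)) = algebraMap K K' (x : K)
  exact s.commutes _

theorem comap_eq_of_unique
    (hvw : ∀ x : 𝓞 K, x ∈ v.asIdeal ↔ algebraMap (𝓞 K) (𝓞 K') x ∈ w.asIdeal)
    (huniq : ∀ w' : HeightOneSpectrum (𝓞 K'),
        (∀ x : 𝓞 K, x ∈ v.asIdeal → algebraMap (𝓞 K) (𝓞 K') x ∈ w'.asIdeal) → w' = w) :
    Ideal.comap (intAut (s : K' ≃+* K')) w.asIdeal = w.asIdeal := by
  have hne : Ideal.comap (intAut (s : K' ≃+* K')) w.asIdeal ≠ ⊥ := by
    intro h
    apply w.ne_bot
    rw [eq_bot_iff]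
    intro y hy
    have h1 : intAut (s : K' ≃+* K').symm y
        ∈ Ideal.comap (intAut (s : K' ≃+* K')) w.asIdeal := by
      rw [Ideal.mem_comap, intAut_intAut_symm]
      exact hy
    rw [h, Ideal.mem_bot] at h1
    have h0 := intAut_intAut_symm (s : K' ≃+* K') y
    rw [h1, map_zero] at h0
    rw [Ideal.mem_bot]
    exact h0.symm
  let w' : HeightOneSpectrum (𝓞 K') :=
    ⟨Ideal.comap (intAut (s : K' ≃+* K')) w.asIdeal, inferInstance, hne⟩
  have h := huniq w' (fun x hx => by
    show intAut (s : K' ≃+* K') (algebraMap (𝓞 K) (𝓞 K') x) ∈ w.asIdeal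
    rw [intAut_algebraMap]
    exact (hvw x).1 hx)
  exact congrArg HeightOneSpectrum.asIdeal h

theorem valuation_aut_eq
    (hvw : ∀ x : 𝓞 K, x ∈ v.asIdeal ↔ algebraMap (𝓞 K) (𝓞 K') x ∈ w.asIdeal)
    (huniq : ∀ w' : HeightOneSpectrum (𝓞 K'),
        (∀ x : 𝓞 K, x ∈ v.asIdeal → algebraMap (𝓞 K) (𝓞 K') x ∈ w'.asIdeal) → w' = w)
    (y : K') : w.valuation K' ((s : K' ≃+* K') y) = w.valuation K' y :=
  valuation_eq_of_comap_eq w (s : K' ≃+* K') (comap_eq_of_unique v w s hvw huniq) y

end Unique

/-! ## 5. The norm of the only prime over `v` -/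

section Norm

variable (v : HeightOneSpectrum (𝓞 K)) (w : HeightOneSpectrum (𝓞 K'))
  [w.asIdeal.LiesOver v.asIdeal]

theorem absNorm_eq_pow_inertia :
    Ideal.absNorm w.asIdeal = Ideal.absNorm v.asIdeal ^ (v.asIdeal.inertiaDeg' w.asIdeal) :=
  Ideal.absNorm_eq_pow_inertiaDeg'_of_liesOver w.asIdeal v.asIdeal v.isPrime v.ne_bot

theorem primesOverFinset_eq
    (huniq : ∀ w' : HeightOneSpectrum (𝓞 K'),
        (∀ x : 𝓞 K, x ∈ v.asIdeal → algebraMap (𝓞 K) (𝓞 K') x ∈ w'.asIdeal) → w' = w) :
    IsDedekindDomain.primesOverFinset v.asIdeal (𝓞 K') = {w.asIdeal} := by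
  have : v.asIdeal.IsMaximal := v.isMaximal
  ext P
  rw [IsDedekindDomain.mem_primesOverFinset_iff v.ne_bot, Finset.mem_singleton]
  constructor
  · rintro ⟨hP, hPo⟩
    have hne : P ≠ ⊥ := by
      rintro rfl
      apply v.ne_bot
      rw [hPo.over]
      rw [eq_bot_iff]
      intro x hx
      rw [Ideal.under_def, Ideal.mem_comap, Ideal.mem_bot] at hx
      rw [Ideal.mem_bot]
      exact FaithfulSMul.algebraMap_injective (𝓞 K) (𝓞 K') (by rw [hx, map_zero])
    have h := huniq ⟨P, hP, hne⟩ (fun x hx => by
      show algebraMap (𝓞 K) (𝓞 K') x ∈ P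
      have := hPo.over
      rw [this] at hx
      exact hx)
    exact congrArg HeightOneSpectrum.asIdeal h
  · rintro rfl
    exact ⟨w.isPrime, inferInstance⟩

theorem ram_mul_inertia
    (huniq : ∀ w' : HeightOneSpectrum (𝓞 K'),
        (∀ x : 𝓞 K, x ∈ v.asIdeal → algebraMap (𝓞 K) (𝓞 K') x ∈ w'.asIdeal) → w' = w) :
    v.asIdeal.ramificationIdx' w.asIdeal * v.asIdeal.inertiaDeg' w.asIdeal
      = Module.finrank K K' := by
  have : v.asIdeal.IsMaximal := v.isMaximal
  have h := Ideal.sum_ramification_inertia (𝓞 K') K K' (p := v.asIdeal) v.ne_bot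
  rw [primesOverFinset_eq v w huniq, Finset.sum_singleton] at h
  exact h

theorem absNorm_eq
    (huniq : ∀ w' : HeightOneSpectrum (𝓞 K'),
        (∀ x : 𝓞 K, x ∈ v.asIdeal → algebraMap (𝓞 K) (𝓞 K') x ∈ w'.asIdeal) → w' = w) :
    Ideal.absNorm w.asIdeal = Ideal.absNorm v.asIdeal ^
      (Module.finrank K K' / ramIdx v w) := by
  unfold ramIdx
  rw [absNorm_eq_pow_inertia v w, ← ram_mul_inertia v w huniq,
    Nat.mul_div_cancel_left _ (Nat.pos_of_ne_zero
      (Ideal.IsDedekindDomain.ramificationIdx'_ne_zero_of_liesOver w.asIdeal v.ne_bot))]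

end Norm

/-! ## 6. The cyclic extension of the completions -/

section Main

variable [IsGalois K K'] (s : K' ≃ₐ[K] K')
  (v : HeightOneSpectrum (𝓞 K)) (w : HeightOneSpectrum (𝓞 K')) [w.asIdeal.LiesOver v.asIdeal]
  (hσ : ∀ y : K', w.valuation K' ((s : K' ≃+* K') y) = w.valuation K' y)

theorem locAut_pow_algebraMap (m : ℕ) (y : K') :
    ((locAut w (s : K' ≃+* K') hσ) ^ m) (algebraMap K' (w.adicCompletion K') y)
      = algebraMap K' (w.adicCompletion K') ((s ^ m) y) := by
  induction m generalizing y with
  | zero => rw [pow_zero, pow_zero, RingAut.one_apply, AlgEquiv.one_apply]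
  | succ m ih =>
    rw [pow_succ, RingAut.mul_apply, locAut_algebraMap, pow_succ, AlgEquiv.mul_apply]
    exact ih _

theorem locAut_locIncl (x : v.adicCompletion K) :
    locAut w (s : K' ≃+* K') hσ (locIncl v w x) = locIncl v w x := by
  have h : (⇑(locAut w (s : K' ≃+* K') hσ) ∘ ⇑(locIncl v w)) = ⇑(locIncl v w) := by
    refine (HeightOneSpectrum.denseRange_algebraMap K v).equalizer
      ((continuous_locAut w _ hσ).comp (continuous_locIncl v w)) (continuous_locIncl v w) ?_
    funext k
    simp only [Function.comp_apply]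
    rw [locIncl_algebraMap, locAut_algebraMap]
    exact congrArg _ (s.commutes k)
  exact congrFun h x

theorem locAut_pow_finrank (hgen : ∀ t : K' ≃ₐ[K] K', t ∈ Subgroup.zpowers s)
    (y : w.adicCompletion K') :
    ((locAut w (s : K' ≃+* K') hσ) ^ Module.finrank K K') y = y := by
  have h : ⇑((locAut w (s : K' ≃+* K') hσ) ^ Module.finrank K K') = id := by
    refine (HeightOneSpectrum.denseRange_algebraMap K' w).equalizer
      (continuous_locAut_pow w _ hσ _) continuous_id ?_
    funext k
    simp only [Function.comp_apply, id]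
    rw [locAut_pow_algebraMap, gen_pow_finrank s hgen, AlgEquiv.one_apply]
  exact congrFun h y

theorem exists_locAut_pow_ne (hgen : ∀ t : K' ≃ₐ[K] K', t ∈ Subgroup.zpowers s)
    (m : ℕ) (hm : 0 < m) (hml : m < Module.finrank K K') :
    ∃ y : w.adicCompletion K', ((locAut w (s : K' ≃+* K') hσ) ^ m) y ≠ y := by
  obtain ⟨y₀, hy₀⟩ := exists_pow_apply_ne s hgen m hm hml
  refine ⟨algebraMap K' (w.adicCompletion K') y₀, ?_⟩
  rw [locAut_pow_algebraMap]
  exact fun h => hy₀ ((algebraMap K' (w.adicCompletion K')).injective h)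

theorem fixed_mem_range (hgen : ∀ t : K' ≃ₐ[K] K', t ∈ Subgroup.zpowers s)
    (y : w.adicCompletion K') (hy : locAut w (s : K' ≃+* K') hσ y = y) :
    ∃ x : v.adicCompletion K, locIncl v w x = y := by
  have hT : Continuous (fun z : w.adicCompletion K' =>
      ∑ j ∈ Finset.range (Module.finrank K K'), ((locAut w (s : K' ≃+* K') hσ) ^ j) z) :=
    continuous_finset_sum _ (fun j _ => continuous_locAut_pow w _ hσ j)
  have hTalg : ∀ y₀ : K',
      (∑ j ∈ Finset.range (Module.finrank K K'),
        ((locAut w (s : K' ≃+* K') hσ) ^ j) (algebraMap K' (w.adicCompletion K') y₀))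
        ∈ Set.range (locIncl v w) := by
    intro y₀
    obtain ⟨k, hk⟩ := mem_range_of_fixed s hgen (powSum s (Module.finrank K K') y₀)
      (powSum_fixed s hgen y₀)
    refine ⟨algebraMap K _ k, ?_⟩
    rw [locIncl_algebraMap, hk]
    simp only [locAut_pow_algebraMap, powSum, map_sum]
  have hall : ∀ z : w.adicCompletion K',
      (∑ j ∈ Finset.range (Module.finrank K K'), ((locAut w (s : K' ≃+* K') hσ) ^ j) z)
        ∈ Set.range (locIncl v w) := fun z =>
    (HeightOneSpectrum.denseRange_algebraMap K' w).induction_on z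
      ((isClosed_range_locIncl v w).preimage hT) hTalg
  have hpow : ∀ j : ℕ, ((locAut w (s : K' ≃+* K') hσ) ^ j) y = y := by
    intro j
    induction j with
    | zero => rw [pow_zero, RingAut.one_apply]
    | succ j ih => rw [pow_succ, RingAut.mul_apply, hy, ih]
  obtain ⟨x, hx⟩ := hall y
  simp only [hpow, Finset.sum_const, Finset.card_range, nsmul_eq_mul] at hx
  have : CharZero (w.adicCompletion K') :=
    charZero_of_injective_algebraMap (algebraMap K' (w.adicCompletion K')).injective
  have hl : ((Module.finrank K K' : ℕ) : w.adicCompletion K') ≠ 0 :=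
    Nat.cast_ne_zero.mpr Module.finrank_pos.ne'
  refine ⟨x / (Module.finrank K K' : v.adicCompletion K), ?_⟩
  rw [map_div₀, map_natCast, hx, mul_div_cancel_left₀ _ hl]

theorem isCyclicData_loc (hgen : ∀ t : K' ≃ₐ[K] K', t ∈ Subgroup.zpowers s) :
    IsCyclicData (v.adicCompletion K) (w.adicCompletion K') (Module.finrank K K')
      (locIncl v w) (locAut w (s : K' ≃+* K') hσ) where
  pos := Module.finrank_pos
  fix_i := locAut_locIncl s v w hσ
  fixed := fixed_mem_range s v w hσ hgen
  order := locAut_pow_finrank s w hσ hgen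
  faithful := exists_locAut_pow_ne s w hσ hgen

theorem isLocalExt_loc (hgen : ∀ t : K' ≃ₐ[K] K', t ∈ Subgroup.zpowers s) :
    IsLocalExt (v.adicCompletion K) (w.adicCompletion K') (Module.finrank K K') (ramIdx v w)
      (locIncl v w) (locAut w (s : K' ≃+* K') hσ) where
  cyc := isCyclicData_loc s v w hσ hgen
  e_pos := Nat.pos_of_ne_zero (ramIdx_ne_zero v w)
  val_i := valued_locIncl v w
  val_s := valued_locAut w _ hσ

end Main

/-- **T6.02 = T6.01b `InstExtC`** (unconditional). -/
theorem instExtC : Fermat.Agent.LT.T6.InstExtC := by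
  intro K K' _ _ _ _ _ _ s hgen _ v w hvw huniq
  have := liesOver_of_iff v w hvw
  have hσ := valuation_aut_eq v w s hvw huniq
  exact ⟨ramIdx v w, locIncl v w, locAut w (s : K' ≃+* K') hσ, locIncl_algebraMap v w,
    fun y => locAut_algebraMap w _ hσ y, isLocalExt_loc s v w hσ hgen, absNorm_eq v w huniq⟩

end Fermat.Agent.LT.T6.H267
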